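import Mathlib

set_option autoImplicit false

open Polynomial Finset

namespace Fermat.Agent.Stickelberger

section PowerSum

variable {F : Type*} [Field F] [Fintype F]

/-- The sum of the values of a polynomial of degree `< #F - 1` over a finite field vanishes. -/
theorem sum_eval_eq_zero_of_natDegree_lt (P : F[X]) (hP : P.natDegree < Fintype.card F - 1) :
    ∑ x : F, P.eval x = 0 := by
  simp_rw [Polynomial.eval_eq_sum_range]
  rw [Finset.sum_comm]
  refine Finset.sum_eq_zero fun i hi => ?_
  rw [← Finset.mul_sum]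
  rw [FiniteField.sum_pow_lt_card_sub_one F i (lt_of_le_of_lt (by
    have := Finset.mem_range.1 hi; omega) hP), mul_zero]

/-- `∑ x, (x (1 - x)) ^ n = 0` over a finite field with more than `2 n + 1` elements. -/
theorem sum_pow_mul_one_sub_pow_eq_zero (n : ℕ) (hn : 2 * n < Fintype.card F - 1) :
    ∑ x : F, x ^ n * (1 - x) ^ n = 0 := by
  have h := sum_eval_eq_zero_of_natDegree_lt ((X * (1 - X)) ^ n : F[X]) (by
    refine lt_of_le_of_lt (Polynomial.natDegree_pow_le.trans ?_) hn
    rw [mul_comm 2 n]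
    refine Nat.mul_le_mul_left _ ?_
    refine (Polynomial.natDegree_mul_le).trans ?_
    have h1 : (1 - X : F[X]).natDegree ≤ 1 := by
      refine (Polynomial.natDegree_sub_le _ _).trans ?_
      simp
    have h2 : (X : F[X]).natDegree ≤ 1 := by simp
    omega)
  simpa [mul_pow] using h

end PowerSum

section ResidueChar

variable {O F : Type*} [CommRing O] [IsDomain O] [Field F] (π : O →+* F)
  {p m : ℕ} {ζ : O}

/-- Reduction of `p`-th roots of unity is injective when the image of a primitive root is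
primitive. -/
theorem restrictRoots_injective [NeZero p] (hζ : IsPrimitiveRoot ζ p)
    (hζπ : IsPrimitiveRoot (π ζ) p) :
    Function.Injective (restrictRootsOfUnity π p) := by
  rw [injective_iff_map_eq_one]
  intro z hz
  obtain ⟨k, hk, hkz⟩ := hζ.eq_pow_of_pow_eq_one
    (show ((z : Oˣ) : O) ^ p = 1 by
      have := z.2
      rw [mem_rootsOfUnity] at this
      have h := congrArg Units.val this
      simpa using h)
  have h1 : π ((z : Oˣ) : O) = 1 := by
    have := congrArg (fun w : rootsOfUnity p F => ((w : Fˣ) : F)) hz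
    simpa [restrictRootsOfUnity_coe_apply] using this
  rw [← hkz, map_pow] at h1
  have h2 : p ∣ k := (hζπ.pow_eq_one_iff_dvd k).1 h1
  have h3 : ζ ^ k = 1 := (hζ.pow_eq_one_iff_dvd k).2 h2
  ext
  rw [← hkz, h3]
  simp

theorem restrictRoots_bijective [NeZero p] (hζ : IsPrimitiveRoot ζ p)
    (hζπ : IsPrimitiveRoot (π ζ) p) :
    Function.Bijective (restrictRootsOfUnity π p) := by
  refine (Nat.bijective_iff_injective_and_card _).2 ⟨restrictRoots_injective π hζ hζπ, ?_⟩
  rw [hζ.card_rootsOfUnity, hζπ.card_rootsOfUnity]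

variable [Fintype F]

/-- `u ↦ u ^ m` as a homomorphism to the `p`-th roots of unity, when `p * m = #F - 1`. -/
noncomputable def powRoots (hm : p * m = Fintype.card F - 1) : Fˣ →* rootsOfUnity p F where
  toFun u := ⟨u ^ m, by
    rw [mem_rootsOfUnity, ← pow_mul, mul_comm, hm]
    ext
    simpa using FiniteField.pow_card_sub_one_eq_one (u : F) u.ne_zero⟩
  map_one' := by ext; simp
  map_mul' u v := by ext; simp [mul_pow]

/-- The unit-level power residue homomorphism. -/
noncomputable def residueUnitHom [NeZero p] (hζ : IsPrimitiveRoot ζ p)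
    (hζπ : IsPrimitiveRoot (π ζ) p) (hm : p * m = Fintype.card F - 1) : Fˣ →* Oˣ :=
  (Subgroup.subtype (rootsOfUnity p O)).comp
    ((MulEquiv.ofBijective (restrictRootsOfUnity π p)
      (restrictRoots_bijective π hζ hζπ)).symm.toMonoidHom.comp (powRoots hm))

/-- The `p`-th power residue character `F → O` attached to `π : O → F`. -/
noncomputable def residueChar [NeZero p] (hζ : IsPrimitiveRoot ζ p)
    (hζπ : IsPrimitiveRoot (π ζ) p) (hm : p * m = Fintype.card F - 1) : MulChar F O :=
  MulChar.ofUnitHom (residueUnitHom π hζ hζπ hm)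

variable [NeZero p] (hζ : IsPrimitiveRoot ζ p) (hζπ : IsPrimitiveRoot (π ζ) p)
  (hm : p * m = Fintype.card F - 1)

theorem residueChar_unit (u : Fˣ) :
    residueChar π hζ hζπ hm (u : F) = (residueUnitHom π hζ hζπ hm u : O) := by
  rw [residueChar, MulChar.ofUnitHom_coe]

theorem map_residueUnitHom (u : Fˣ) :
    π (residueUnitHom π hζ hζπ hm u : O) = (u : F) ^ m := by
  set e := MulEquiv.ofBijective (restrictRootsOfUnity π p) (restrictRoots_bijective π hζ hζπ)
  have h : e (e.symm (powRoots hm u)) = powRoots hm u := e.apply_symm_apply _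
  have h2 := congrArg (fun w : rootsOfUnity p F => ((w : Fˣ) : F)) h
  simp only [e, MulEquiv.ofBijective_apply, restrictRootsOfUnity_coe_apply] at h2
  simpa [residueUnitHom, powRoots, e] using h2

theorem residueUnitHom_pow_eq_one (u : Fˣ) :
    (residueUnitHom π hζ hζπ hm u : O) ^ p = 1 := by
  set e := MulEquiv.ofBijective (restrictRootsOfUnity π p) (restrictRoots_bijective π hζ hζπ)
  have := (e.symm (powRoots hm u)).2
  rw [mem_rootsOfUnity] at this
  have h := congrArg Units.val this
  simpa [residueUnitHom, e] using h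

omit [IsDomain O] [NeZero p] in
include hm in
theorem m_ne_zero : m ≠ 0 := by
  rintro rfl
  have := Fintype.one_lt_card (α := F)
  omega

/-- Key congruence: `χ(x) ≡ x ^ m mod 𝔮`. -/
theorem map_residueChar (hm0 : m ≠ 0) (x : F) :
    π (residueChar π hζ hζπ hm x) = x ^ m := by
  by_cases hx : IsUnit x
  · obtain ⟨u, rfl⟩ := hx
    rw [residueChar_unit, map_residueUnitHom]
  · rw [MulChar.map_nonunit _ hx, map_zero]
    have : x = 0 := by simpa using hx
    rw [this, zero_pow hm0]

/-- Composing with a ring endomorphism `τ` with `τ ζ = ζ ^ a` raises the character to the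
`a`-th power. -/
theorem residueChar_ringHomComp (τ : O →+* O) {a : ℕ} (ha : a ≠ 0) (hτ : τ ζ = ζ ^ a) :
    (residueChar π hζ hζπ hm).ringHomComp τ = (residueChar π hζ hζπ hm) ^ a := by
  ext u
  rw [MulChar.ringHomComp_apply, MulChar.pow_apply' _ ha, residueChar_unit]
  obtain ⟨k, -, hk⟩ := hζ.eq_pow_of_pow_eq_one (residueUnitHom_pow_eq_one π hζ hζπ hm u)
  rw [← hk, map_pow, hτ, ← pow_mul, ← pow_mul, mul_comm]

theorem residueChar_pow_p : (residueChar π hζ hζπ hm) ^ p = 1 := by
  ext u
  rw [MulChar.pow_apply' _ (NeZero.ne p), residueChar_unit, residueUnitHom_pow_eq_one,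
    MulChar.one_apply_coe]

theorem residueChar_inv (hp : 0 < p) :
    (residueChar π hζ hζπ hm)⁻¹ = (residueChar π hζ hζπ hm) ^ (p - 1) := by
  rw [inv_eq_iff_eq_inv, eq_inv_iff_mul_eq_one, ← pow_succ', Nat.sub_add_cancel hp,
    residueChar_pow_p]

/-- The character has exact order `p`: no smaller positive power is trivial. -/
theorem residueChar_pow_ne_one {j : ℕ} (hj : 0 < j) (hjp : j < p) :
    (residueChar π hζ hζπ hm) ^ j ≠ 1 := by
  intro h
  classical
  have hm0 := m_ne_zero hm
  obtain ⟨g, hg⟩ := IsCyclic.exists_generator (α := Fˣ)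
  have hord : orderOf g = Fintype.card F - 1 := by
    rw [orderOf_eq_card_of_forall_mem_zpowers hg, Nat.card_eq_fintype_card,
      Fintype.card_units]
  have h1 : ((g : F)) ^ (m * j) = 1 := by
    have := congrArg π (congrArg (fun χ : MulChar F O => χ (g : F)) h)
    simp only [MulChar.pow_apply' _ hj.ne', MulChar.one_apply_coe, map_pow, map_one] at this
    rw [map_residueChar π hζ hζπ hm hm0] at this
    rwa [← pow_mul] at this
  have h2 : g ^ (m * j) = 1 := by ext; simpa using h1
  have h3 := orderOf_dvd_of_pow_eq_one h2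
  rw [hord, ← hm, mul_comm p m] at h3
  have h4 : p ∣ j := Nat.dvd_of_mul_dvd_mul_left (Nat.pos_of_ne_zero hm0) h3
  exact absurd (Nat.le_of_dvd hj h4) (not_le.2 hjp)

/-- The reduction of the Jacobi sum `J(χ^a, χ^a)`. -/
theorem map_jacobiSum_pow {a : ℕ} (ha : a ≠ 0) :
    π (jacobiSum ((residueChar π hζ hζπ hm) ^ a) ((residueChar π hζ hζπ hm) ^ a)) =
      ∑ x : F, x ^ (m * a) * (1 - x) ^ (m * a) := by
  have hm0 := m_ne_zero hm
  rw [jacobiSum, map_sum]
  refine Finset.sum_congr rfl fun x _ => ?_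
  rw [map_mul, MulChar.pow_apply' _ ha, MulChar.pow_apply' _ ha, map_pow, map_pow,
    map_residueChar π hζ hζπ hm hm0, map_residueChar π hζ hζπ hm hm0, ← pow_mul, ← pow_mul]

/-- **Stickelberger congruence** for Jacobi sums: `J(χ^a, χ^a) ≡ 0 mod 𝔮` for `0 < a < p/2`. -/
theorem map_jacobiSum_pow_eq_zero {a : ℕ} (ha : 0 < a) (h2a : 2 * a < p) :
    π (jacobiSum ((residueChar π hζ hζπ hm) ^ a) ((residueChar π hζ hζπ hm) ^ a)) = 0 := by
  rw [map_jacobiSum_pow π hζ hζπ hm ha.ne']
  apply sum_pow_mul_one_sub_pow_eq_zero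
  have hm0 := Nat.pos_of_ne_zero (m_ne_zero hm)
  rw [← hm]
  calc 2 * (m * a) = m * (2 * a) := by ring
    _ < m * p := Nat.mul_lt_mul_of_pos_left h2a hm0
    _ = p * m := by ring

/-- The conjugate `τ J(χ,χ)` lies in the kernel of `π` when `τ ζ = ζ ^ a`, `0 < a < p/2`. -/
theorem map_apply_jacobiSum_eq_zero (τ : O →+* O) {a : ℕ} (ha : 0 < a) (h2a : 2 * a < p)
    (hτ : τ ζ = ζ ^ a) :
    π (τ (jacobiSum (residueChar π hζ hζπ hm) (residueChar π hζ hζπ hm))) = 0 := by
  rw [← jacobiSum_ringHomComp, residueChar_ringHomComp π hζ hζπ hm τ ha.ne' hτ]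
  exact map_jacobiSum_pow_eq_zero π hζ hζπ hm ha h2a

/-- `J(χ,χ) · J(χ⁻¹,χ⁻¹) = #F`. -/
theorem jacobiSum_mul_jacobiSum_inv_eq {K : Type*} [Field K] (ι : O →+* K)
    (hι : Function.Injective ι) (hchar : ringChar K ≠ ringChar F) (hp3 : 3 ≤ p) :
    jacobiSum (residueChar π hζ hζπ hm) (residueChar π hζ hζπ hm) *
      jacobiSum (residueChar π hζ hζπ hm)⁻¹ (residueChar π hζ hζπ hm)⁻¹ =
        (Fintype.card F : O) := by
  set χ := residueChar π hζ hζπ hm with hχdef
  apply hι
  rw [map_mul, ← jacobiSum_ringHomComp, ← jacobiSum_ringHomComp, map_natCast]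
  have hinj : Function.Injective (fun ψ : MulChar F O => ψ.ringHomComp ι) :=
    MulChar.injective_ringHomComp hι
  have h1 : χ.ringHomComp ι ≠ 1 := by
    intro h
    have : χ ^ 1 = 1 := by
      rw [pow_one]
      apply hinj
      simpa using h
    exact residueChar_pow_ne_one π hζ hζπ hm one_pos (by omega) this
  have h2 : χ.ringHomComp ι * χ.ringHomComp ι ≠ 1 := by
    intro h
    have : χ ^ 2 = 1 := by
      apply hinj
      simp only
      rw [pow_two, MulChar.ringHomComp_mul, h, MulChar.ringHomComp_one]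
    exact residueChar_pow_ne_one π hζ hζπ hm two_pos (by omega) this
  have := jacobiSum_mul_jacobiSum_inv hchar h1 h1 h2
  rw [← MulChar.ringHomComp_inv]
  exact this

end ResidueChar

end Fermat.Agent.Stickelberger
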