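import Mathlib
import Fermat.Agent.Lib.Stickelberger.ResidueChar

set_option autoImplicit false

open NumberField Polynomial Finset

namespace Fermat.Agent.Stickelberger

section NF

variable {p : ℕ} [hp : Fact p.Prime] {K : Type} [Field K] [NumberField K]
  [IsCyclotomicExtension {p} ℚ K] {ℓ : ℕ} [hℓ : Fact ℓ.Prime] (Q : Ideal (𝓞 K)) [Q.IsPrime]

omit [NumberField K] in
/-- A prime containing `ℓ` lies over `ℓ`. -/
theorem liesOver_of_mem (hℓQ : (ℓ : 𝓞 K) ∈ Q) : Q.LiesOver (Ideal.span {(ℓ : ℤ)}) := by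
  constructor
  have h1 : Ideal.span {(ℓ : ℤ)} ≤ Ideal.under ℤ Q := by
    rw [Ideal.span_singleton_le_iff_mem, Ideal.under_def, Ideal.mem_comap]
    simpa using hℓQ
  have hmax : (Ideal.span {(ℓ : ℤ)}).IsMaximal :=
    Ideal.IsPrime.isMaximal
      ((Ideal.span_singleton_prime (by exact_mod_cast hℓ.out.ne_zero)).2
        (Nat.prime_iff_prime_int.1 hℓ.out)) (by
        simpa using hℓ.out.ne_zero)
  have hne : Ideal.under ℤ Q ≠ ⊤ := (Ideal.IsPrime.under ℤ Q).ne_top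
  exact (hmax.eq_of_le hne h1)

theorem ne_bot_of_mem (hℓQ : (ℓ : 𝓞 K) ∈ Q) : Q ≠ ⊥ := by
  rintro rfl
  rw [Ideal.mem_bot] at hℓQ
  exact hℓ.out.ne_zero (Nat.cast_eq_zero.1 hℓQ)

omit hp hℓ [IsCyclotomicExtension {p} ℚ K] in
theorem prime_ne_of_mod (hp' : p.Prime) (hℓp : ℓ % p = 1) : ℓ ≠ p := by
  rintro rfl
  rw [Nat.mod_self] at hℓp
  exact zero_ne_one hℓp

/-- The residue field of a prime over `ℓ ≡ 1 mod p` of `ℚ(ζ_p)` has `ℓ` elements. -/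
theorem absNorm_eq_of_mod (hℓp : ℓ % p = 1) (hℓQ : (ℓ : 𝓞 K) ∈ Q) : Ideal.absNorm Q = ℓ := by
  have := liesOver_of_mem Q hℓQ
  have : NeZero p := ⟨hp.out.ne_zero⟩
  have hndvd : ¬ ℓ ∣ p := by
    intro h
    rcases (Nat.dvd_prime hp.out).1 h with h1 | h1
    · exact hℓ.out.ne_one h1
    · exact prime_ne_of_mod hp.out hℓp h1
  have h1 := IsCyclotomicExtension.Rat.inertiaDeg_eq_of_not_dvd ℓ K Q hndvd
  have h2 : ((ℓ : ℕ) : ZMod p) = 1 := by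
    rw [← Nat.mod_add_div ℓ p, hℓp]
    simp
  rw [h2, orderOf_one] at h1
  have hmaxℓ : (Ideal.span {(ℓ : ℤ)}).IsMaximal :=
    Ideal.IsPrime.isMaximal
      ((Ideal.span_singleton_prime (by exact_mod_cast hℓ.out.ne_zero)).2
        (Nat.prime_iff_prime_int.1 hℓ.out)) (by
        simpa using hℓ.out.ne_zero)
  have : Q.IsMaximal := Ideal.IsPrime.isMaximal inferInstance (ne_bot_of_mem Q hℓQ)
  rw [Ideal.absNorm_eq_pow_inertiaDeg' Q hℓ.out, Ideal.inertiaDeg'_eq_inertiaDeg, h1, pow_one]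

omit [IsCyclotomicExtension {p} ℚ K] in
/-- `p ∉ Q` if `Q` contains the prime `ℓ ≠ p`. -/
theorem natCast_not_mem (hne : ℓ ≠ p) (hℓQ : (ℓ : 𝓞 K) ∈ Q) : (p : 𝓞 K) ∉ Q := by
  intro hpQ
  have hcop : Nat.Coprime ℓ p := (Nat.coprime_primes hℓ.out hp.out).2 hne
  have h1 : ((ℓ : ℤ) : 𝓞 K) * ((ℓ : ℤ).gcdA p : 𝓞 K) + ((p : ℤ) : 𝓞 K) * ((ℓ : ℤ).gcdB p : 𝓞 K)
      = 1 := by
    have := Int.gcd_eq_gcd_ab (ℓ : ℤ) (p : ℤ)
    rw [Int.gcd_natCast_natCast, hcop.gcd_eq_one] at this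
    have h2 := congrArg (Int.cast : ℤ → 𝓞 K) this
    push_cast at h2
    exact_mod_cast h2.symm
  have h3 : (1 : 𝓞 K) ∈ Q := by
    rw [← h1]
    refine Q.add_mem (Q.mul_mem_right _ ?_) (Q.mul_mem_right _ ?_)
    · simpa using hℓQ
    · simpa using hpQ
  exact (Ideal.IsPrime.ne_top inferInstance) ((Ideal.eq_top_iff_one Q).2 h3)

omit [IsCyclotomicExtension {p} ℚ K] in
/-- A primitive `p`-th root of unity stays primitive modulo `Q`. -/
theorem isPrimitiveRoot_mk {ζ : 𝓞 K} (hζ : IsPrimitiveRoot ζ p) (hne : ℓ ≠ p)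
    (hℓQ : (ℓ : 𝓞 K) ∈ Q) : IsPrimitiveRoot (Ideal.Quotient.mk Q ζ) p := by
  rw [IsPrimitiveRoot.iff_orderOf]
  refine orderOf_eq_prime ?_ ?_
  · rw [← map_pow, hζ.pow_eq_one, map_one]
  · intro h1
    have h2 : ζ - 1 ∈ Q := by
      rw [← Ideal.Quotient.eq_zero_iff_mem, map_sub, h1, map_one, sub_self]
    apply natCast_not_mem Q hne hℓQ
    obtain ⟨n, hn⟩ : ∃ n, p = n + 1 := ⟨p - 1, (Nat.succ_pred_eq_of_pos hp.out.pos).symm⟩
    have h3 := (hn ▸ hζ).prod_one_sub_pow_eq_order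
    have h4 : (p : 𝓞 K) = ∏ k ∈ Finset.range n, (1 - ζ ^ (k + 1)) := by
      rw [h3, hn]; push_cast; ring
    rw [h4]
    have hn0 : 0 ∈ Finset.range n := by
      rw [Finset.mem_range]
      have := hp.out.two_le
      omega
    rw [← Finset.mul_prod_erase _ _ hn0]
    refine Q.mul_mem_right _ ?_
    have : (1 : 𝓞 K) - ζ ^ (0 + 1) = -(ζ - 1) := by ring
    rw [this]
    exact Q.neg_mem h2

end NF

end Fermat.Agent.Stickelberger
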