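import Mathlib
import Fermat.Agent.Lib.Stickelberger.ResidueChar
import Fermat.Agent.Lib.Stickelberger.Prime

set_option autoImplicit false
set_option linter.unusedSectionVars false

open NumberField Polynomial Finset

namespace Fermat.Agent.Stickelberger

section Jac

variable {p : ℕ} [hp : Fact p.Prime] {K : Type} [Field K] [NumberField K]
  [IsCyclotomicExtension {p} ℚ K] {ℓ : ℕ} [hℓ : Fact ℓ.Prime] (Q : Ideal (𝓞 K))
  [hQ : Q.IsMaximal] [hfin : Finite (𝓞 K ⧸ Q)]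

attribute [local instance] Ideal.Quotient.field

/-- Local `Fintype` structure on the residue field. -/
noncomputable local instance fintypeQuot : Fintype (𝓞 K ⧸ Q) := Fintype.ofFinite _

omit [IsCyclotomicExtension {p} ℚ K] hp in
theorem card_quot (hN : Ideal.absNorm Q = ℓ) : Fintype.card (𝓞 K ⧸ Q) = ℓ := by
  rw [← Nat.card_eq_fintype_card, ← hN, Ideal.absNorm_apply, Submodule.cardQuot_apply]

omit [IsCyclotomicExtension {p} ℚ K] hp in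
/-- Every element of `𝓞 K` is congruent to an integer modulo a prime of degree one. -/
theorem exists_int_sub_mem (hN : Ideal.absNorm Q = ℓ) (y : 𝓞 K) : ∃ n : ℤ, y - (n : 𝓞 K) ∈ Q := by
  have hcard : Nat.card (𝓞 K ⧸ Q) = ℓ := by
    rw [← hN, Ideal.absNorm_apply, Submodule.cardQuot_apply]
  have h1 : (1 : 𝓞 K ⧸ Q) ≠ 0 := one_ne_zero
  have h2 := zmultiples_eq_top_of_prime_card hcard h1
  have h3 : Ideal.Quotient.mk Q y ∈ AddSubgroup.zmultiples (1 : 𝓞 K ⧸ Q) := by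
    rw [h2]; trivial
  obtain ⟨n, hn⟩ := AddSubgroup.mem_zmultiples_iff.1 h3
  refine ⟨n, ?_⟩
  rw [← Ideal.Quotient.eq_zero_iff_mem, map_sub, ← hn]
  simp

variable {ζ : 𝓞 K} (hζ : IsPrimitiveRoot ζ p) (hζπ : IsPrimitiveRoot (Ideal.Quotient.mk Q ζ) p)

omit [IsCyclotomicExtension {p} ℚ K] in
include hζπ in
/-- Conjugate primes of degree one are distinct. -/
theorem comap_ne_comap (hN : Ideal.absNorm Q = ℓ) (τ₁ τ₂ : 𝓞 K ≃ₐ[ℤ] 𝓞 K) {s t : ℕ}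
    (hs : s < p) (ht : t < p) (hst : s ≠ t) (h₁ : τ₁ ζ = ζ ^ s) (h₂ : τ₂ ζ = ζ ^ t) :
    Ideal.comap τ₁ Q ≠ Ideal.comap τ₂ Q := by
  intro h
  obtain ⟨n, hn⟩ := exists_int_sub_mem Q hN (ζ ^ s)
  have h3 : ζ - (n : 𝓞 K) ∈ Ideal.comap τ₁ Q := by
    rw [Ideal.mem_comap, map_sub, h₁, map_intCast]
    exact hn
  rw [h, Ideal.mem_comap, map_sub, h₂, map_intCast] at h3
  have h4 : ζ ^ s - ζ ^ t ∈ Q := by
    have := Q.sub_mem hn h3
    simpa using this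
  rw [← Ideal.Quotient.eq_zero_iff_mem, map_sub, map_pow, map_pow, sub_eq_zero] at h4
  exact hst (hζπ.pow_inj hs ht h4)

variable {m : ℕ} (hm : p * m = Fintype.card (𝓞 K ⧸ Q) - 1)

/-- The Jacobi sum `J(χ_Q, χ_Q) ∈ 𝓞 K` of the `p`-th power residue character of `Q`. -/
noncomputable def jac : 𝓞 K :=
  jacobiSum (residueChar (Ideal.Quotient.mk Q) hζ hζπ hm)
    (residueChar (Ideal.Quotient.mk Q) hζ hζπ hm)

/-- **Stickelberger congruence**: `J ∈ σ_s⁻¹ Q` for `0 < s < p / 2`. -/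
theorem jac_mem_comap (τ : 𝓞 K ≃ₐ[ℤ] 𝓞 K) {s : ℕ} (hs : 0 < s) (h2s : 2 * s < p)
    (hτ : τ ζ = ζ ^ s) : jac Q hζ hζπ hm ∈ Ideal.comap τ Q := by
  rw [Ideal.mem_comap, ← Ideal.Quotient.eq_zero_iff_mem]
  exact map_apply_jacobiSum_eq_zero (Ideal.Quotient.mk Q) hζ hζπ hm
    ((τ : 𝓞 K ≃+* 𝓞 K) : 𝓞 K →+* 𝓞 K) hs h2s hτ

theorem ringChar_ne : ringChar K ≠ ringChar (𝓞 K ⧸ Q) := by
  rw [ringChar.eq_zero]
  exact (CharP.ringChar_ne_zero_of_finite (𝓞 K ⧸ Q)).symm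

/-- `J · J̄ = ℓ`. -/
theorem jac_mul_conj (hp3 : 3 ≤ p) (hN : Ideal.absNorm Q = ℓ) (τ : 𝓞 K ≃ₐ[ℤ] 𝓞 K)
    (hτ : τ ζ = ζ ^ (p - 1)) : jac Q hζ hζπ hm * τ (jac Q hζ hζπ hm) = (ℓ : 𝓞 K) := by
  have h1 : τ (jac Q hζ hζπ hm) =
      jacobiSum (residueChar (Ideal.Quotient.mk Q) hζ hζπ hm)⁻¹
        (residueChar (Ideal.Quotient.mk Q) hζ hζπ hm)⁻¹ := by
    have h2 := jacobiSum_ringHomComp (residueChar (Ideal.Quotient.mk Q) hζ hζπ hm)
      (residueChar (Ideal.Quotient.mk Q) hζ hζπ hm) ((τ : 𝓞 K ≃+* 𝓞 K) : 𝓞 K →+* 𝓞 K)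
    rw [residueChar_ringHomComp (Ideal.Quotient.mk Q) hζ hζπ hm _
      (show p - 1 ≠ 0 by omega) hτ] at h2
    rw [residueChar_inv _ _ _ _ hp.out.pos, h2]
    rfl
  rw [h1, jac, jacobiSum_mul_jacobiSum_inv_eq (Ideal.Quotient.mk Q) hζ hζπ hm
    (algebraMap (𝓞 K) K) (RingOfIntegers.coe_injective) (ringChar_ne Q) hp3, card_quot Q hN]

omit hQ hfin in
theorem finrank_int : Module.finrank ℤ (𝓞 K) = p - 1 := by
  rw [RingOfIntegers.rank, IsCyclotomicExtension.finrank K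
    (Polynomial.cyclotomic.irreducible_rat hp.out.pos), Nat.totient_prime hp.out]

/-- `|N(J)| = ℓ ^ ((p - 1) / 2)`. -/
theorem natAbs_norm_jac (hp3 : 3 ≤ p) (hN : Ideal.absNorm Q = ℓ) (τ : 𝓞 K ≃ₐ[ℤ] 𝓞 K)
    (hτ : τ ζ = ζ ^ (p - 1)) :
    (Algebra.norm ℤ (jac Q hζ hζπ hm)).natAbs = ℓ ^ ((p - 1) / 2) := by
  have h1 := congrArg (Algebra.norm ℤ) (jac_mul_conj Q hζ hζπ hm hp3 hN τ hτ)
  rw [map_mul, Algebra.norm_eq_of_algEquiv] at h1
  have h2 : Algebra.norm ℤ (ℓ : 𝓞 K) = (ℓ : ℤ) ^ (p - 1) := by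
    have := Algebra.norm_algebraMap (S := 𝓞 K) (ℓ : ℤ)
    rw [finrank_int (p := p)] at this
    simpa using this
  rw [h2] at h1
  have h3 := congrArg Int.natAbs h1
  rw [Int.natAbs_mul, Int.natAbs_pow, Int.natAbs_natCast] at h3
  have hodd : p - 1 = (p - 1) / 2 * 2 := by
    rcases hp.out.eq_two_or_odd with h | h
    · omega
    · omega
  have h4 : (Algebra.norm ℤ (jac Q hζ hζπ hm)).natAbs ^ 2 = (ℓ ^ ((p - 1) / 2)) ^ 2 := by
    rw [← pow_mul, ← hodd, ← h3, sq]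
  exact Nat.pow_left_injective (two_ne_zero) h4

end Jac

section Final

variable {K : Type} [Field K] [NumberField K]

/-- If `x` lies in pairwise distinct maximal ideals `P i` whose norms multiply to `|N x|`, then
`(x) = ∏ P i`. -/
theorem prod_eq_span_singleton {ι : Type*} (S : Finset ι) (P : ι → Ideal (𝓞 K))
    (hP : ∀ i ∈ S, (P i).IsMaximal) (hdist : ∀ i ∈ S, ∀ j ∈ S, i ≠ j → P i ≠ P j)
    (x : 𝓞 K) (hx : ∀ i ∈ S, x ∈ P i)
    (hnorm : ∏ i ∈ S, Ideal.absNorm (P i) = (Algebra.norm ℤ x).natAbs)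
    (hx0 : (Algebra.norm ℤ x).natAbs ≠ 0) :
    ∏ i ∈ S, P i = Ideal.span {x} := by
  have hdvd : ∏ i ∈ S, P i ∣ Ideal.span {x} := by
    apply Finset.prod_dvd_of_coprime
    · intro i hi j hj hij
      rw [Function.onFun, Ideal.isCoprime_iff_sup_eq]
      exact Ideal.IsMaximal.coprime_of_ne (hP i hi) (hP j hj) (hdist i hi j hj hij)
    · intro i hi
      rw [Ideal.dvd_iff_le, Ideal.span_singleton_le_iff_mem]
      exact hx i hi
  obtain ⟨A, hA⟩ := hdvd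
  have h1 := congrArg Ideal.absNorm hA
  rw [map_mul, map_prod, Ideal.absNorm_span_singleton, hnorm] at h1
  have h2 : Ideal.absNorm A = 1 := by
    have h3 : (Algebra.norm ℤ x).natAbs * 1 = (Algebra.norm ℤ x).natAbs * Ideal.absNorm A := by
      rw [mul_one]; exact h1
    exact (Nat.eq_of_mul_eq_mul_left (Nat.pos_of_ne_zero hx0) h3).symm
  rw [Ideal.absNorm_eq_one_iff] at h2
  rw [hA, h2, Ideal.mul_top]

end Final

end Fermat.Agent.Stickelberger
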